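import Mathlib

/-!
# A Horner-type integrality lemma (helper91, for S54)

If `a` is a root of `t * X ^ j + r` with `deg r < j` and `0 < j`, then `t(a)` and `t(a) * a`
are integral over the base ring.
-/

set_option autoImplicit false

namespace Fermat.Agent.S54.helper91

open Polynomial

/-- If `u` is integral over `R` and `u * a ^ j + r(a) = 0` with `deg r < j`, then `u * a` is
integral over `R`. -/
theorem isIntegral_mul_of_eq {R S : Type*} [CommRing R] [CommRing S] [Algebra R S]
    {a u : S} (hu : IsIntegral R u) (r : R[X]) (j : ℕ) (hj : r.degree < j)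
    (h : u * a ^ j + aeval a r = 0) : IsIntegral R (u * a) := by
  classical
  let u' : integralClosure R S := ⟨u, hu⟩
  by_cases hu0 : u' = 0
  · have hu00 : u = 0 := congrArg Subtype.val hu0
    rw [hu00, zero_mul]
    exact isIntegral_zero
  let q : (integralClosure R S)[X] := C u' * X ^ j + r.map (algebraMap R (integralClosure R S))
  have hdeg : (r.map (algebraMap R (integralClosure R S))).degree < (C u' * X ^ j).degree := by
    rw [degree_C_mul_X_pow j hu0]
    exact lt_of_le_of_lt degree_map_le hj
  have hlead : q.leadingCoeff = u' := by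
    rw [leadingCoeff_add_of_degree_lt' hdeg, leadingCoeff_C_mul_X_pow]
  have hq : aeval a q = 0 := by
    have h1 : aeval a (C u' * X ^ j : (integralClosure R S)[X]) = u * a ^ j := by
      rw [map_mul, aeval_C, map_pow, aeval_X]
      rfl
    have h2 : aeval a (r.map (algebraMap R (integralClosure R S))) = aeval a r := by
      rw [aeval_map_algebraMap]
    rw [map_add, h1, h2, h]
  have h3 := isIntegral_leadingCoeff_smul q a hq
  rw [hlead] at h3
  have h4 : IsIntegral (integralClosure R S) (u * a) := h3
  exact isIntegral_trans _ h4

/-- Horner-type integrality: if `a` is a root of `t * X ^ j + r` with `deg r < j`, `0 < j`,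
then `t(a)` and `t(a) * a` are integral. -/
theorem horner_isIntegral {R S : Type*} [CommRing R] [CommRing S] [Algebra R S] (a : S) :
    ∀ (n : ℕ) (t : R[X]), t.natDegree ≤ n → ∀ (r : R[X]) (j : ℕ), r.degree < j →
      aeval a (t * X ^ j + r) = 0 →
      IsIntegral R (aeval a t) ∧ IsIntegral R (aeval a t * a) := by
  intro n
  induction n with
  | zero =>
    intro t ht r j hj h
    have htC : t = C (t.coeff 0) := eq_C_of_natDegree_le_zero ht
    have hu : IsIntegral R (aeval a t) := by
      rw [htC, aeval_C]
      exact isIntegral_algebraMap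
    refine ⟨hu, isIntegral_mul_of_eq hu r j hj ?_⟩
    rw [← h, map_add, map_mul, map_pow, aeval_X]
  | succ n ih =>
    intro t ht r j hj h
    have hd : t.divX.natDegree ≤ n := by
      rw [natDegree_divX_eq_natDegree_tsub_one]
      omega
    have hr' : (C (t.coeff 0) * X ^ j + r).degree < ((j + 1 : ℕ) : WithBot ℕ) := by
      refine lt_of_le_of_lt (degree_add_le _ _) ?_
      rw [max_lt_iff]
      constructor
      · refine lt_of_le_of_lt (degree_C_mul_X_pow_le j _) ?_
        exact_mod_cast Nat.lt_succ_self j
      · refine lt_trans hj ?_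
        exact_mod_cast Nat.lt_succ_self j
    have heq : t.divX * X ^ (j + 1) + (C (t.coeff 0) * X ^ j + r) = t * X ^ j + r := by
      conv_rhs => rw [← divX_mul_X_add t]
      ring
    obtain ⟨h1, h2⟩ := ih t.divX hd (C (t.coeff 0) * X ^ j + r) (j + 1) hr' (by rw [heq, h])
    have hu : IsIntegral R (aeval a t) := by
      have : aeval a t = aeval a t.divX * a + algebraMap R S (t.coeff 0) := by
        conv_lhs => rw [← divX_mul_X_add t]
        rw [map_add, map_mul, aeval_X, aeval_C]
      rw [this]
      exact h2.add isIntegral_algebraMap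
    refine ⟨hu, isIntegral_mul_of_eq hu r j hj ?_⟩
    rw [← h, map_add, map_mul, map_pow, aeval_X]

end Fermat.Agent.S54.helper91
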