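import Mathlib
import Fermat.Agent.S54.helper91_Horner

/-!
# Elements of a valuation subring over a prime are fractions of algebraic integers (helper91)

Let `K` be a field of characteristic zero and `A` a valuation subring of `K` in which the prime
number `ℓ` is a non-unit. Every element `a ∈ A` which is algebraic over `ℤ` can be written as
`x / s` with `x, s` integral over `ℤ` and `s` a unit of `A`.
-/

set_option autoImplicit false

namespace Fermat.Agent.S54.helper91

open Polynomial

variable {K : Type*} [Field K]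

/-- Elements integral over `ℤ` lie in every valuation subring. -/
theorem mem_valuationSubring_of_isIntegral (A : ValuationSubring K) {x : K}
    (hx : IsIntegral ℤ x) : x ∈ A := by
  have h1 : IsIntegral A x := hx.tower_top
  obtain ⟨y, rfl⟩ := (IsIntegrallyClosed.isIntegral_iff (R := A) (K := K)).mp h1
  exact y.2

theorem valuation_le_one_of_isIntegral (A : ValuationSubring K) {x : K}
    (hx : IsIntegral ℤ x) : A.valuation x ≤ 1 :=
  (A.valuation_le_one_iff x).mpr (mem_valuationSubring_of_isIntegral A hx)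

theorem valuation_intCast_le_one (A : ValuationSubring K) (n : ℤ) : A.valuation (n : K) ≤ 1 :=
  (A.valuation_le_one_iff _).mpr (intCast_mem A n)

/-- An integer not divisible by `ℓ` is a unit in a valuation subring in which `ℓ` is a nonunit. -/
theorem valuation_intCast_eq_one (A : ValuationSubring K) {ℓ : ℕ} (hℓ : ℓ.Prime)
    (hℓA : (ℓ : K) ∈ A.nonunits) {c : ℤ} (hc : ¬ (ℓ : ℤ) ∣ c) : A.valuation (c : K) = 1 := by
  have hcop : IsCoprime c (ℓ : ℤ) :=
    (((Nat.prime_iff_prime_int.mp hℓ).irreducible.coprime_iff_not_dvd).mpr hc).symm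
  obtain ⟨m, n, hmn⟩ := hcop
  have h1 : (m : K) * (c : K) = 1 + (-(n : K) * (ℓ : K)) := by
    have : ((m * c + n * (ℓ : ℤ) : ℤ) : K) = 1 := by rw [hmn]; simp
    push_cast at this
    linear_combination this
  have hlt : A.valuation (-(n : K) * (ℓ : K)) < 1 := by
    rw [map_mul, Valuation.map_neg]
    have h2 : A.valuation (n : K) ≤ 1 := valuation_intCast_le_one A n
    have h3 : A.valuation (ℓ : K) < 1 := A.mem_nonunits_iff.mp hℓA
    calc A.valuation (n : K) * A.valuation (ℓ : K) ≤ 1 * A.valuation (ℓ : K) :=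
          mul_le_mul_left h2 _
      _ = A.valuation (ℓ : K) := one_mul _
      _ < 1 := h3
  have h4 : A.valuation ((m : K) * (c : K)) = 1 := by
    rw [h1]; exact Valuation.map_one_add_of_lt _ hlt
  rw [map_mul] at h4
  have hm : A.valuation (m : K) ≤ 1 := valuation_intCast_le_one A m
  have hc' : A.valuation (c : K) ≤ 1 := valuation_intCast_le_one A c
  refine le_antisymm hc' ?_
  calc (1 : A.ValueGroup) = A.valuation (m : K) * A.valuation (c : K) := h4.symm
    _ ≤ 1 * A.valuation (c : K) := mul_le_mul_left hm _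
    _ = A.valuation (c : K) := one_mul _

end Fermat.Agent.S54.helper91

namespace Fermat.Agent.S54.helper91

open Polynomial

variable {K : Type*} [Field K]

theorem iterate_divX_coeff {R : Type*} [Semiring R] (p : R[X]) (j i : ℕ) :
    (divX^[j] p).coeff i = p.coeff (i + j) := by
  induction j generalizing i with
  | zero => simp
  | succ j ih =>
    rw [Function.iterate_succ_apply', coeff_divX, ih]
    congr 1
    omega

theorem aeval_mem_valuationSubring (A : ValuationSubring K) {a : K} (ha : a ∈ A) (q : ℤ[X]) :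
    aeval a q ∈ A := by
  induction q using Polynomial.induction_on' with
  | add p q hp hq =>
    rw [map_add]
    exact A.add_mem _ _ hp hq
  | monomial n c =>
    rw [aeval_monomial]
    refine A.mul_mem _ _ ?_ (pow_mem ha n)
    rw [eq_intCast]
    exact intCast_mem A c

/-- Every element of a valuation subring `A` (with the prime `ℓ` a nonunit) that is algebraic
over `ℤ` is a fraction `x / s` of integral elements with `s` a unit of `A`. -/
theorem exists_integral_fraction [CharZero K] (A : ValuationSubring K) {ℓ : ℕ} (hℓ : ℓ.Prime)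
    (hℓA : (ℓ : K) ∈ A.nonunits) {a : K} (ha : a ∈ A) (halg : IsAlgebraic ℤ a) :
    ∃ s x : K, IsIntegral ℤ s ∧ IsIntegral ℤ x ∧ A.valuation s = 1 ∧ s * a = x := by
  classical
  obtain ⟨p₀, hp₀, hp₀a⟩ := halg
  -- pass to the primitive part
  have hprim : p₀.primPart.IsPrimitive := isPrimitive_primPart p₀
  have hpa : aeval a p₀.primPart = 0 := by
    have h1 : p₀ = C p₀.content * p₀.primPart := eq_C_content_mul_primPart p₀
    have h2 : aeval a p₀ = (p₀.content : K) * aeval a p₀.primPart := by
      conv_lhs => rw [h1]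
      rw [map_mul, aeval_C, eq_intCast]
    rw [hp₀a] at h2
    have hc : (p₀.content : K) ≠ 0 := by
      exact_mod_cast (content_eq_zero_iff.not.mpr hp₀)
    exact (mul_eq_zero.mp h2.symm).resolve_left hc
  generalize p₀.primPart = p at hprim hpa
  -- some coefficient is not divisible by ℓ
  have hex : ∃ i, i ≤ p.natDegree ∧ ¬ (ℓ : ℤ) ∣ p.coeff i := by
    by_contra hcon
    have hdvd : C (ℓ : ℤ) ∣ p := by
      rw [C_dvd_iff_dvd_coeff]
      intro i
      by_cases hi : i ≤ p.natDegree
      · by_contra hnd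
        exact hcon ⟨i, hi, hnd⟩
      · rw [coeff_eq_zero_of_natDegree_lt (not_le.mp hi)]; exact dvd_zero _
    have hu : IsUnit (ℓ : ℤ) := hprim _ hdvd
    exact (Nat.prime_iff_prime_int.mp hℓ).not_isUnit hu
  obtain ⟨i₀, hi₀, hi₀'⟩ := hex
  have hj : ¬ (ℓ : ℤ) ∣ p.coeff (Nat.findGreatest (fun i => ¬ (ℓ : ℤ) ∣ p.coeff i) p.natDegree) :=
    Nat.findGreatest_spec (P := fun i => ¬ (ℓ : ℤ) ∣ p.coeff i) hi₀ hi₀'
  have hjmax : ∀ i, Nat.findGreatest (fun i => ¬ (ℓ : ℤ) ∣ p.coeff i) p.natDegree < i →
      (ℓ : ℤ) ∣ p.coeff i := by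
    intro i hi
    by_cases hin : i ≤ p.natDegree
    · by_contra hnd
      exact absurd (Nat.le_findGreatest (P := fun i => ¬ (ℓ : ℤ) ∣ p.coeff i) hin hnd)
        (not_le.mpr hi)
    · rw [coeff_eq_zero_of_natDegree_lt (not_le.mp hin)]; exact dvd_zero _
  generalize Nat.findGreatest (fun i => ¬ (ℓ : ℤ) ∣ p.coeff i) p.natDegree = j at hj hjmax
  -- decomposition `p = t * X ^ j + r`
  have hr : (p - divX^[j] p * X ^ j).degree < (j : WithBot ℕ) := by
    rw [degree_lt_iff_coeff_zero]
    intro m hm
    rw [coeff_sub, coeff_mul_X_pow', if_pos hm, iterate_divX_coeff, Nat.sub_add_cancel hm,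
      sub_self]
  have hroot : aeval a (divX^[j] p * X ^ j + (p - divX^[j] p * X ^ j)) = 0 := by
    have : divX^[j] p * X ^ j + (p - divX^[j] p * X ^ j) = p := by ring
    rw [this, hpa]
  obtain ⟨h1, h2⟩ := horner_isIntegral a (divX^[j] p).natDegree (divX^[j] p) le_rfl _ j hr hroot
  refine ⟨aeval a (divX^[j] p), aeval a (divX^[j] p) * a, h1, h2, ?_, rfl⟩
  -- valuation of `aeval a t`
  have hdiv : C (ℓ : ℤ) ∣ (divX^[j] p).divX := by
    rw [C_dvd_iff_dvd_coeff]
    intro i
    rw [coeff_divX, iterate_divX_coeff]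
    exact hjmax _ (by omega)
  obtain ⟨t₂, ht₂⟩ := hdiv
  have hc0 : (divX^[j] p).coeff 0 = p.coeff j := by
    rw [iterate_divX_coeff, zero_add]
  have ht : aeval a (divX^[j] p) = (p.coeff j : K) + a * ((ℓ : K) * aeval a t₂) := by
    conv_lhs => rw [← X_mul_divX_add (divX^[j] p)]
    rw [map_add, map_mul, aeval_X, aeval_C, ht₂, map_mul, aeval_C, hc0, eq_intCast, eq_intCast,
      Int.cast_natCast]
    ring
  have hmem : aeval a t₂ ∈ A := aeval_mem_valuationSubring A ha t₂
  have hlt : A.valuation (a * ((ℓ : K) * aeval a t₂)) < 1 := by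
    rw [map_mul, map_mul]
    have ha1 : A.valuation a ≤ 1 := (A.valuation_le_one_iff a).mpr ha
    have hm1 : A.valuation (aeval a t₂) ≤ 1 := (A.valuation_le_one_iff _).mpr hmem
    have hℓ1 : A.valuation (ℓ : K) < 1 := A.mem_nonunits_iff.mp hℓA
    calc A.valuation a * (A.valuation (ℓ : K) * A.valuation (aeval a t₂))
        ≤ 1 * (A.valuation (ℓ : K) * 1) := by
          gcongr
      _ = A.valuation (ℓ : K) := by rw [one_mul, mul_one]
      _ < 1 := hℓ1
  have hcj : A.valuation (p.coeff j : K) = 1 := valuation_intCast_eq_one A hℓ hℓA hj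
  rw [ht, Valuation.map_add_eq_of_lt_left, hcj]
  rw [hcj]
  exact hlt

end Fermat.Agent.S54.helper91
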