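import Mathlib
import Fermat.Prelude.Def_EllipticCurve_FrobeniusTrace
import Fermat.Prelude.Def_FLTPrelim_Ramification
import Fermat.Agent.S54.helper91_ValFraction

/-!
# Existence of Frobenius elements in `Gal(ℚ̄/ℚ)` (helper91, for S54 and friends)

Main results (all in namespace `Fermat.Agent.S54.helper91`):

* `exists_valuationSubring_liesOver`: for every prime `ℓ` there is a valuation subring of `ℚ̄`
  lying over `ℓ`.
* `exists_isFrobeniusAt_of_liesOver`: for EVERY valuation subring `A` of `ℚ̄` lying over the prime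
  `ℓ` there is `σ` with `A.IsFrobeniusAt σ ℓ`.
* `exists_isFrobeniusAt`: for every prime `ℓ` there are `A` and `σ` with `A.LiesOverPrime ℓ` and
  `A.IsFrobeniusAt σ ℓ`.
* `mem_decompositionSubgroup_of_stab`: the stabiliser of the prime `𝔪_A ∩ ℤ̄` is contained in the
  decomposition group of `A`.
-/

set_option autoImplicit false
set_option linter.style.haveILetI false

open scoped Pointwise

namespace Fermat.Agent.S54.helper91

/-- `ℚ̄`. -/
noncomputable abbrev Qbar := AlgebraicClosure ℚ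
/-- The absolute Galois group of `ℚ`. -/
noncomputable abbrev GQ := AlgebraicClosure ℚ ≃ₐ[ℚ] AlgebraicClosure ℚ
/-- The ring of all algebraic integers. -/
noncomputable abbrev Zbar : Subalgebra ℤ Qbar := integralClosure ℤ Qbar

theorem isAlgebraic_Qbar : Algebra.IsAlgebraic ℚ Qbar := AlgebraicClosure.isAlgebraic ℚ

theorem isAlgClosure_Qbar : IsAlgClosure ℚ Qbar :=
  have := isAlgebraic_Qbar
  (isAlgClosure_iff (k := ℚ) Qbar).mpr ⟨inferInstance, inferInstance⟩

theorem normal_Qbar : Normal ℚ Qbar :=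
  have := isAlgClosure_Qbar
  IsAlgClosure.normal ℚ Qbar

theorem isGalois_Qbar : IsGalois ℚ Qbar :=
  have := isAlgClosure_Qbar
  have := normal_Qbar
  ⟨⟩

theorem compactSpace_GQ : CompactSpace GQ :=
  have := isGalois_Qbar
  inferInstance

theorem totallyDisconnectedSpace_GQ : TotallyDisconnectedSpace GQ :=
  have := isAlgebraic_Qbar
  inferInstance

theorem isAlgebraic_int_Qbar (a : Qbar) : IsAlgebraic ℤ a := by
  have := isAlgebraic_Qbar
  exact (IsFractionRing.isAlgebraic_iff ℤ ℚ Qbar).mpr (Algebra.IsAlgebraic.isAlgebraic a)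

/-- The Galois action on the ring of algebraic integers. -/
@[reducible] noncomputable def zbarAction : MulSemiringAction GQ Zbar where
  smul σ b := ⟨σ b.1, map_isIntegral_int σ b.2⟩
  one_smul _ := Subtype.ext rfl
  mul_smul _ _ _ := Subtype.ext rfl
  smul_zero σ := Subtype.ext (map_zero σ)
  smul_add σ b c := Subtype.ext (map_add σ b.1 c.1)
  smul_one σ := Subtype.ext (map_one σ)
  smul_mul σ b c := Subtype.ext (map_mul σ b.1 c.1)

attribute [local instance] zbarAction

theorem zbar_smul_coe (σ : GQ) (b : Zbar) : ((σ • b : Zbar) : Qbar) = σ (b : Qbar) := rfl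

theorem zbar_isInvariant : Algebra.IsInvariant ℤ Zbar GQ := by
  have := isGalois_Qbar
  refine ⟨fun b hb => ?_⟩
  have hfix : (b : Qbar) ∈ IntermediateField.fixedField
      ((⊥ : IntermediateField ℚ Qbar).fixingSubgroup) := by
    rintro ⟨g, -⟩
    exact congrArg Subtype.val (hb g)
  rw [InfiniteGalois.fixedField_fixingSubgroup, IntermediateField.mem_bot] at hfix
  obtain ⟨q, hq⟩ := hfix
  have hint : IsIntegral ℤ (algebraMap ℚ Qbar q) := by rw [hq]; exact b.2
  rw [isIntegral_algebraMap_iff (FaithfulSMul.algebraMap_injective ℚ Qbar)] at hint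
  obtain ⟨n, hn⟩ := IsIntegrallyClosed.isIntegral_iff.mp hint
  refine ⟨n, Subtype.ext ?_⟩
  rw [← hq, ← hn]
  simp

/-- The discrete topology on the ring of algebraic integers. -/
@[reducible] def zbarTopology : TopologicalSpace Zbar := ⊥

attribute [local instance] zbarTopology

theorem zbar_discrete : DiscreteTopology Zbar := ⟨rfl⟩

theorem zbar_continuousSMul : ContinuousSMul GQ Zbar := by
  have := isAlgebraic_Qbar
  have := zbar_discrete
  rw [continuousSMul_iff_stabilizer_isOpen]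
  intro b
  have h := stabilizer_isOpen_of_isIntegral (K := ℚ) (L := Qbar) (b : Qbar)
  convert h using 1
  ext σ
  simp only [SetLike.mem_coe, MulAction.mem_stabilizer_iff]
  constructor
  · intro h1
    exact congrArg Subtype.val h1
  · intro h1
    exact Subtype.ext h1

/-- A prime number is not a unit in the ring of algebraic integers. -/
theorem not_isUnit_natCast_zbar {ℓ : ℕ} (hℓ : ℓ.Prime) : ¬ IsUnit (ℓ : Zbar) := by
  rintro ⟨u, hu⟩
  have h1 : (ℓ : Zbar) * ((u⁻¹ : Zbarˣ) : Zbar) = 1 := by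
    rw [← hu]; exact u.mul_inv
  have h2 : (ℓ : Qbar) * (((u⁻¹ : Zbarˣ) : Zbar) : Qbar) = 1 := by
    have := congrArg (fun z : Zbar => (z : Qbar)) h1
    simpa using this
  have hℓ0 : (ℓ : Qbar) ≠ 0 := by exact_mod_cast hℓ.ne_zero
  have hval : (((u⁻¹ : Zbarˣ) : Zbar) : Qbar) = algebraMap ℚ Qbar ((ℓ : ℚ)⁻¹) := by
    rw [map_inv₀, map_natCast]
    field_simp
    rw [mul_comm]; exact h2
  have hint : IsIntegral ℤ (algebraMap ℚ Qbar ((ℓ : ℚ)⁻¹)) := by
    rw [← hval]; exact ((u⁻¹ : Zbarˣ) : Zbar).2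
  rw [isIntegral_algebraMap_iff (FaithfulSMul.algebraMap_injective ℚ Qbar)] at hint
  obtain ⟨m, hm⟩ := IsIntegrallyClosed.isIntegral_iff.mp hint
  rw [eq_intCast] at hm
  have hℓQ : (ℓ : ℚ) ≠ 0 := by exact_mod_cast hℓ.ne_zero
  have hmul : ((ℓ * m : ℤ) : ℚ) = ((1 : ℤ) : ℚ) := by
    push_cast; rw [hm]; field_simp
  have hdvd : (ℓ : ℤ) ∣ 1 := ⟨m, (Int.cast_injective hmul).symm⟩
  have hle : (ℓ : ℤ) ≤ 1 := Int.le_of_dvd one_pos hdvd
  have := hℓ.two_le
  omega

/-- For every prime `ℓ` there is a valuation subring of `ℚ̄` in which `ℓ` is a nonunit. -/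
theorem exists_valuationSubring_liesOver {ℓ : ℕ} (hℓ : ℓ.Prime) :
    ∃ A : ValuationSubring Qbar, A.LiesOverPrime ℓ := by
  have hI : Ideal.span {(ℓ : Zbar.toSubring)} ≠ ⊤ := by
    intro htop
    exact not_isUnit_natCast_zbar hℓ (Ideal.span_singleton_eq_top.mp htop)
  obtain ⟨A, -, hA⟩ := Ideal.image_subset_nonunits_valuationSubring _ hI
  refine ⟨A, hA ⟨(ℓ : Zbar.toSubring), Ideal.subset_span rfl, ?_⟩⟩
  simp

/-- The inclusion of the algebraic integers in a valuation subring. -/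
noncomputable def zbarToVal (A : ValuationSubring Qbar) : Zbar →+* A :=
  RingHom.codRestrict (Zbar.val : Zbar →+* Qbar) A
    (fun b => mem_valuationSubring_of_isIntegral A b.2)

theorem zbarToVal_coe (A : ValuationSubring Qbar) (b : Zbar) :
    ((zbarToVal A b : A) : Qbar) = (b : Qbar) := rfl

/-- The prime of the algebraic integers cut out by a valuation subring. -/
noncomputable def zbarPrime (A : ValuationSubring Qbar) : Ideal Zbar :=
  Ideal.comap (zbarToVal A) (IsLocalRing.maximalIdeal A)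

instance zbarPrime_isPrime (A : ValuationSubring Qbar) : (zbarPrime A).IsPrime :=
  Ideal.comap_isPrime _ _

theorem mem_zbarPrime_iff (A : ValuationSubring Qbar) (b : Zbar) :
    b ∈ zbarPrime A ↔ A.valuation (b : Qbar) < 1 := by
  rw [zbarPrime, Ideal.mem_comap, A.valuation_lt_one_iff, zbarToVal_coe]

theorem natCast_mem_zbarPrime (A : ValuationSubring Qbar) {ℓ : ℕ} (hA : A.LiesOverPrime ℓ) :
    (ℓ : Zbar) ∈ zbarPrime A := by
  rw [mem_zbarPrime_iff]
  have := A.mem_nonunits_iff.mp hA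
  simpa using this

theorem charP_quotient_zbarPrime (A : ValuationSubring Qbar) {ℓ : ℕ} (hℓ : ℓ.Prime)
    (hA : A.LiesOverPrime ℓ) : CharP (Zbar ⧸ zbarPrime A) ℓ := by
  haveI : Nontrivial (Zbar ⧸ zbarPrime A) :=
    Ideal.Quotient.nontrivial_iff.mpr (zbarPrime_isPrime A).ne_top
  rw [CharP.charP_iff_prime_eq_zero hℓ]
  have h := natCast_mem_zbarPrime A hA
  rw [← Ideal.Quotient.eq_zero_iff_mem] at h
  simpa using h

/-- Frobenius is surjective on the quotient of the algebraic integers by any ideal. -/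
theorem frobenius_surjective_quotient (I : Ideal Zbar) {ℓ : ℕ} (hℓ : ℓ.Prime) :
    Function.Surjective (fun x : Zbar ⧸ I => x ^ ℓ) := by
  intro y
  obtain ⟨b, rfl⟩ := Ideal.Quotient.mk_surjective y
  obtain ⟨c, hc⟩ := IsAlgClosed.exists_pow_nat_eq (b : Qbar) hℓ.pos
  have hcint : IsIntegral ℤ c := by
    have : IsIntegral ℤ (c ^ ℓ) := by rw [hc]; exact b.2
    exact IsIntegral.of_pow hℓ.pos this
  refine ⟨Ideal.Quotient.mk I ⟨c, hcint⟩, ?_⟩
  show (Ideal.Quotient.mk I ⟨c, hcint⟩) ^ ℓ = Ideal.Quotient.mk I b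
  rw [← map_pow]
  congr 1
  exact Subtype.ext hc



/-- The Frobenius automorphism of `Zbar ⧸ Q` over `ℤ ⧸ (Q ∩ ℤ)`. -/
noncomputable def frobAlgEquiv (A : ValuationSubring Qbar) {ℓ : ℕ} (hℓ : ℓ.Prime)
    (hA : A.LiesOverPrime ℓ) :
    (Zbar ⧸ zbarPrime A) ≃ₐ[ℤ ⧸ (zbarPrime A).under ℤ] (Zbar ⧸ zbarPrime A) :=
  haveI := charP_quotient_zbarPrime A hℓ hA
  haveI : ExpChar (Zbar ⧸ zbarPrime A) ℓ := ExpChar.prime hℓ
  AlgEquiv.ofBijective
    { toRingHom := frobenius (Zbar ⧸ zbarPrime A) ℓ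
      commutes' := by
        intro r
        obtain ⟨n, rfl⟩ := Ideal.Quotient.mk_surjective r
        show frobenius _ ℓ (Ideal.Quotient.mk _ (algebraMap ℤ Zbar n)) =
          Ideal.Quotient.mk _ (algebraMap ℤ Zbar n)
        rw [eq_intCast, map_intCast, map_intCast] }
    ⟨frobenius_inj _ _, frobenius_surjective_quotient _ hℓ⟩

theorem frobAlgEquiv_apply (A : ValuationSubring Qbar) {ℓ : ℕ} (hℓ : ℓ.Prime)
    (hA : A.LiesOverPrime ℓ) (x : Zbar ⧸ zbarPrime A) :
    frobAlgEquiv A hℓ hA x = x ^ ℓ := rfl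

/-- Existence of a Frobenius element for the prime of `Zbar` cut out by `A`. -/
theorem exists_frobenius_zbar (A : ValuationSubring Qbar) {ℓ : ℕ} (hℓ : ℓ.Prime)
    (hA : A.LiesOverPrime ℓ) :
    ∃ σ : GQ, σ • zbarPrime A = zbarPrime A ∧ ∀ b : Zbar, σ • b - b ^ ℓ ∈ zbarPrime A := by
  haveI := compactSpace_GQ
  haveI := totallyDisconnectedSpace_GQ
  letI := zbarTopology
  haveI := zbar_discrete
  haveI := zbar_continuousSMul
  haveI := zbar_isInvariant
  obtain ⟨g, hg⟩ := Ideal.Quotient.stabilizerHom_surjective_of_profinite (G := GQ)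
    ((zbarPrime A).under ℤ) (zbarPrime A) (frobAlgEquiv A hℓ hA)
  refine ⟨g.1, g.2, fun b => ?_⟩
  have h1 := congrArg (fun f => f (Ideal.Quotient.mk _ b)) hg
  simp only [Ideal.Quotient.stabilizerHom_apply, frobAlgEquiv_apply] at h1
  rw [← map_pow] at h1
  exact Ideal.Quotient.eq.mp h1



/-- An automorphism stabilising the prime `Q = 𝔪_A ∩ Zbar` maps units of `A` in `Zbar` to units. -/
theorem valuation_apply_eq_one_of_stab (A : ValuationSubring Qbar) (τ : GQ)
    (hτ : τ • zbarPrime A = zbarPrime A) {s : Qbar} (hs : IsIntegral ℤ s)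
    (hs1 : A.valuation s = 1) : A.valuation (τ s) = 1 := by
  have hle : A.valuation (τ s) ≤ 1 := valuation_le_one_of_isIntegral A (map_isIntegral_int τ hs)
  rcases lt_or_eq_of_le hle with hlt | heq
  · exfalso
    have h1 : τ • (⟨s, hs⟩ : Zbar) ∈ zbarPrime A := by
      rw [mem_zbarPrime_iff]; exact hlt
    rw [← hτ, Ideal.smul_mem_pointwise_smul_iff, mem_zbarPrime_iff] at h1
    rw [hs1] at h1
    exact lt_irrefl _ h1
  · exact heq

/-- An automorphism stabilising the prime `Q = 𝔪_A ∩ Zbar` maps `A` into itself. -/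
theorem apply_mem_of_stab (A : ValuationSubring Qbar) {ℓ : ℕ} (hℓ : ℓ.Prime)
    (hA : A.LiesOverPrime ℓ) (τ : GQ) (hτ : τ • zbarPrime A = zbarPrime A) {a : Qbar}
    (ha : a ∈ A) : τ a ∈ A := by
  obtain ⟨s, x, hs, hx, hs1, hsx⟩ := exists_integral_fraction A hℓ hA ha (isAlgebraic_int_Qbar a)
  have h1 : τ s * τ a = τ x := by rw [← map_mul, hsx]
  have h2 : A.valuation (τ s) = 1 := valuation_apply_eq_one_of_stab A τ hτ hs hs1
  have h3 : A.valuation (τ x) ≤ 1 := valuation_le_one_of_isIntegral A (map_isIntegral_int τ hx)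
  rw [← A.valuation_le_one_iff]
  have h4 : A.valuation (τ s) * A.valuation (τ a) = A.valuation (τ x) := by
    rw [← map_mul, h1]
  rw [h2, one_mul] at h4
  rw [h4]; exact h3

/-- An automorphism stabilising the prime `Q = 𝔪_A ∩ Zbar` lies in the decomposition group. -/
theorem mem_decompositionSubgroup_of_stab (A : ValuationSubring Qbar) {ℓ : ℕ} (hℓ : ℓ.Prime)
    (hA : A.LiesOverPrime ℓ) (τ : GQ) (hτ : τ • zbarPrime A = zbarPrime A) :
    τ ∈ A.decompositionSubgroup ℚ := by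
  have hτ' : τ⁻¹ • zbarPrime A = zbarPrime A := by
    have h : τ ∈ MulAction.stabilizer GQ (zbarPrime A) := hτ
    exact (MulAction.stabilizer GQ (zbarPrime A)).inv_mem h
  rw [MulAction.mem_stabilizer_iff]
  ext y
  rw [ValuationSubring.mem_pointwise_smul_iff_inv_smul_mem]
  constructor
  · intro hy
    have := apply_mem_of_stab A hℓ hA τ hτ hy
    simpa using this
  · intro hy
    exact apply_mem_of_stab A hℓ hA τ⁻¹ hτ' hy

/-- **Existence of Frobenius elements**: for every valuation subring `A` of `ℚ̄` lying over the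
prime `ℓ` there is `σ ∈ Gal(ℚ̄/ℚ)` which is a Frobenius element at `A`. -/
theorem exists_isFrobeniusAt_of_liesOver (A : ValuationSubring Qbar) {ℓ : ℕ} (hℓ : ℓ.Prime)
    (hA : A.LiesOverPrime ℓ) : ∃ σ : GQ, A.IsFrobeniusAt σ ℓ := by
  obtain ⟨σ, hσQ, hσF⟩ := exists_frobenius_zbar A hℓ hA
  have hσD : σ ∈ A.decompositionSubgroup ℚ := mem_decompositionSubgroup_of_stab A hℓ hA σ hσQ
  refine ⟨σ, hσD, fun xbar => ?_⟩
  obtain ⟨a, rfl⟩ := IsLocalRing.residue_surjective xbar
  rw [← IsLocalRing.ResidueField.residue_smul, ← map_pow]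
  rw [← sub_eq_zero, ← map_sub, IsLocalRing.residue_eq_zero_iff, A.valuation_lt_one_iff]
  -- the element is `σ a - a ^ ℓ`
  have hcoe : (((⟨σ, hσD⟩ : A.decompositionSubgroup ℚ) • a - a ^ ℓ : A) : Qbar) =
      σ (a : Qbar) - (a : Qbar) ^ ℓ := rfl
  rw [hcoe]
  obtain ⟨s, x, hs, hx, hs1, hsx⟩ :=
    exists_integral_fraction A hℓ hA a.2 (isAlgebraic_int_Qbar (a : Qbar))
  have hσs1 : A.valuation (σ s) = 1 := valuation_apply_eq_one_of_stab A σ hσQ hs hs1
  -- Frobenius congruences for `s` and `x`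
  have hFs : A.valuation (σ s - s ^ ℓ) < 1 := by
    have := hσF ⟨s, hs⟩
    rw [mem_zbarPrime_iff] at this
    exact this
  have hFx : A.valuation (σ x - x ^ ℓ) < 1 := by
    have := hσF ⟨x, hx⟩
    rw [mem_zbarPrime_iff] at this
    exact this
  have hxle : A.valuation x ≤ 1 := valuation_le_one_of_isIntegral A hx
  have key : (σ (a : Qbar) - (a : Qbar) ^ ℓ) * (σ s * s ^ ℓ) =
      (σ x - x ^ ℓ) * s ^ ℓ - x ^ ℓ * (σ s - s ^ ℓ) := by
    have e1 : σ x = σ s * σ (a : Qbar) := by rw [← map_mul, hsx]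
    have e2 : x ^ ℓ = s ^ ℓ * (a : Qbar) ^ ℓ := by rw [← mul_pow, hsx]
    rw [e1, e2]; ring
  have hval : A.valuation ((σ (a : Qbar) - (a : Qbar) ^ ℓ) * (σ s * s ^ ℓ)) < 1 := by
    rw [key]
    refine Valuation.map_sub_lt _ ?_ ?_
    · rw [map_mul, map_pow, hs1, one_pow, mul_one]; exact hFx
    · rw [map_mul, map_pow]
      calc A.valuation x ^ ℓ * A.valuation (σ s - s ^ ℓ)
          ≤ 1 * A.valuation (σ s - s ^ ℓ) := by
            gcongr
            exact pow_le_one₀ zero_le hxle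
        _ = A.valuation (σ s - s ^ ℓ) := one_mul _
        _ < 1 := hFs
  rw [map_mul, map_mul, map_pow, hσs1, hs1, one_pow, mul_one, mul_one] at hval
  exact hval

/-- **Existence of Frobenius elements**: for every prime `ℓ` there are a valuation subring `A`
of `ℚ̄` lying over `ℓ` and a Frobenius element `σ` at `A`. -/
theorem exists_isFrobeniusAt {ℓ : ℕ} (hℓ : ℓ.Prime) :
    ∃ (A : ValuationSubring (AlgebraicClosure ℚ))
      (σ : AlgebraicClosure ℚ ≃ₐ[ℚ] AlgebraicClosure ℚ),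
      A.LiesOverPrime ℓ ∧ A.IsFrobeniusAt σ ℓ := by
  obtain ⟨A, hA⟩ := exists_valuationSubring_liesOver hℓ
  obtain ⟨σ, hσ⟩ := exists_isFrobeniusAt_of_liesOver A hℓ hA
  exact ⟨A, σ, hA, hσ⟩

end Fermat.Agent.S54.helper91
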