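import Fermat.Statements.S54
import Fermat.Agent.S54.helper91_Frobenius

/-!
# S54 (`R ↠ T`) from the existence of Frobenius elements (helper91)
-/

set_option autoImplicit false
set_option linter.style.haveILetI false

open GaloisRep GaloisRep.DeformationRingData Polynomial

namespace Fermat.Agent.S54.helper91

/-- Characteristic polynomials are compatible with `GaloisRepAdic.baseChangeAlong`. -/
theorem charpoly_baseChangeAlong {A B : Type} [CommRing A] [IsLocalRing A] [CommRing B]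
    [IsLocalRing B] (φ : A →+* B) (hφ : IsLocalHom φ) (ρ : GaloisRepAdic A)
    (σ : AlgebraicClosure ℚ ≃ₐ[ℚ] AlgebraicClosure ℚ) :
    LinearMap.charpoly ((ρ.baseChangeAlong φ hφ).ρ σ) = (LinearMap.charpoly (ρ.ρ σ)).map φ := by
  letI : Algebra A B := φ.toAlgebra
  exact LinearMap.charpoly_baseChange (ρ.ρ σ) B

/-- Characteristic polynomials are invariant under equivalence of representations. -/
theorem charpoly_eq_of_equiv {A : Type} [CommRing A] [IsLocalRing A] {ρ₁ ρ₂ : GaloisRepAdic A}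
    (e : GaloisRepAdic.Equiv ρ₁ ρ₂) (σ : AlgebraicClosure ℚ ≃ₐ[ℚ] AlgebraicClosure ℚ) :
    LinearMap.charpoly (ρ₂.ρ σ) = LinearMap.charpoly (ρ₁.ρ σ) := by
  have h : ρ₂.ρ σ = e.toLinearEquiv.conj (ρ₁.ρ σ) := by
    apply LinearMap.ext
    intro x
    rw [LinearEquiv.conj_apply_apply, e.map_apply, LinearEquiv.apply_symm_apply]
  rw [h, LinearEquiv.charpoly_conj]

/-- The image under `π` of the Hecke operator `T_ℓ` lies in the range of any `𝒪`-algebra map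
`φ : R → T` along which the Galois representation of `T` is obtained by base change. -/
theorem pi_T_mem_range {𝒪 : Type} [CommRing 𝒪] [IsDomain 𝒪] [IsDiscreteValuationRing 𝒪]
    [IsAdicComplete (IsLocalRing.maximalIdeal 𝒪) 𝒪]
    {N : ℕ} [NeZero N] {S : Set ℕ}
    {θ : CuspForm.heckeAlgebra N 2 S →+* IsLocalRing.ResidueField 𝒪}
    {T : Type} [CommRing T] [IsLocalRing T] [IsNoetherianRing T]
    [IsAdicComplete (IsLocalRing.maximalIdeal T) T] [Algebra 𝒪 T] [IsLocalHom (algebraMap 𝒪 T)]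
    [Module.Finite 𝒪 T] [Module.Free 𝒪 T] (H : CuspForm.HeckeGaloisRepDatum N S 𝒪 θ T)
    {R : Type} [CommRing R] [IsLocalRing R] [Algebra 𝒪 R] (ρR : GaloisRepAdic R)
    (φ : R →ₐ[𝒪] T) (hφ : IsLocalHom (φ : R →+* T))
    (e : GaloisRepAdic.Equiv (ρR.baseChangeAlong (φ : R →+* T) hφ) H.ρ)
    {ℓ : ℕ} (hℓ : ℓ.Prime) (hℓN : ¬ ℓ ∣ N) (hℓS : ℓ ∉ S) :
    H.π (CuspForm.heckeAlgebra.T hℓ hℓN hℓS) ∈ φ.range := by
  obtain ⟨A, σ, hA, hσ⟩ := exists_isFrobeniusAt hℓ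
  have h1 := H.charpoly_frob ℓ hℓ hℓN hℓS A hA σ hσ
  have h2 : LinearMap.charpoly (H.ρ.ρ σ) = (LinearMap.charpoly (ρR.ρ σ)).map (φ : R →+* T) := by
    rw [charpoly_eq_of_equiv e σ, charpoly_baseChangeAlong]
  have h3 := congrArg (fun p : T[X] => p.coeff 1) (h1.symm.trans h2)
  simp only [coeff_add, coeff_sub, coeff_X_pow, coeff_C_mul, coeff_X_one, coeff_C, coeff_map]
    at h3
  norm_num at h3
  refine ⟨-(LinearMap.charpoly (ρR.ρ σ)).coeff 1, ?_⟩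
  rw [map_neg]
  exact neg_eq_iff_eq_neg.mpr h3.symm |>.symm ▸ rfl

/-- If every prime dividing `N` lies in `S`, the image of the whole Hecke algebra under `π` lies
in the range of `φ`. -/
theorem pi_mem_range {𝒪 : Type} [CommRing 𝒪] [IsDomain 𝒪] [IsDiscreteValuationRing 𝒪]
    [IsAdicComplete (IsLocalRing.maximalIdeal 𝒪) 𝒪]
    {N : ℕ} [NeZero N] {S : Set ℕ}
    {θ : CuspForm.heckeAlgebra N 2 S →+* IsLocalRing.ResidueField 𝒪}
    {T : Type} [CommRing T] [IsLocalRing T] [IsNoetherianRing T]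
    [IsAdicComplete (IsLocalRing.maximalIdeal T) T] [Algebra 𝒪 T] [IsLocalHom (algebraMap 𝒪 T)]
    [Module.Finite 𝒪 T] [Module.Free 𝒪 T] (H : CuspForm.HeckeGaloisRepDatum N S 𝒪 θ T)
    (hS : ∀ q : ℕ, q.Prime → q ∣ N → q ∈ S)
    {R : Type} [CommRing R] [IsLocalRing R] [Algebra 𝒪 R] (ρR : GaloisRepAdic R)
    (φ : R →ₐ[𝒪] T) (hφ : IsLocalHom (φ : R →+* T))
    (e : GaloisRepAdic.Equiv (ρR.baseChangeAlong (φ : R →+* T) hφ) H.ρ)
    (t : CuspForm.heckeAlgebra N 2 S) : H.π t ∈ φ.range := by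
  obtain ⟨x, hx⟩ := t
  induction hx using Algebra.adjoin_induction with
  | mem x hx =>
    rcases hx with ⟨ℓ, hℓ, hℓN, hℓS, rfl⟩ | ⟨q, hqN, hq, hqS, rfl⟩
    · exact pi_T_mem_range H ρR φ hφ e hℓ hℓN hℓS
    · exact absurd (hS q hq hqN) hqS
  | algebraMap r =>
    have : (⟨algebraMap ℤ _ r, Subalgebra.algebraMap_mem _ r⟩ : CuspForm.heckeAlgebra N 2 S) =
        ((r : ℤ) : CuspForm.heckeAlgebra N 2 S) := by
      apply Subtype.ext
      simp
    rw [this, map_intCast]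
    exact intCast_mem _ r
  | add x y hx hy ihx ihy =>
    have : (⟨x + y, add_mem hx hy⟩ : CuspForm.heckeAlgebra N 2 S) = ⟨x, hx⟩ + ⟨y, hy⟩ := rfl
    rw [this, map_add]
    exact add_mem ihx ihy
  | mul x y hx hy ihx ihy =>
    have : (⟨x * y, mul_mem hx hy⟩ : CuspForm.heckeAlgebra N 2 S) = ⟨x, hx⟩ * ⟨y, hy⟩ := rfl
    rw [this, map_mul]
    exact mul_mem ihx ihy

/-- The statement of S54. -/
theorem s54 {𝒪 : Type} [CommRing 𝒪] [IsDomain 𝒪] [IsDiscreteValuationRing 𝒪] [IsAdicComplete (IsLocalRing.maximalIdeal 𝒪) 𝒪] {ρbar : ResidualGaloisRep (IsLocalRing.ResidueField 𝒪)} {𝒟 : ∀ ⦃A : Type⦄ [CommRing A] [IsLocalRing A] [Algebra 𝒪 A], GaloisRepAdic A → Prop} (D : GaloisRep.DeformationRingData 𝒪 ρbar 𝒟) {N : ℕ} [NeZero N] {S : Set ℕ} {θ : CuspForm.heckeAlgebra N 2 S →+* IsLocalRing.ResidueField 𝒪} {T : Type} [CommRing T] [IsLocalRing T] [IsNoetherianRing T] [IsAdicComplete (IsLocalRing.maximalIdeal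 T) T] [Algebra 𝒪 T] [IsLocalHom (algebraMap 𝒪 T)] [Module.Finite 𝒪 T] [Module.Free 𝒪 T] (H : CuspForm.HeckeGaloisRepDatum N S 𝒪 θ T) (hS : ∀ q : ℕ, q.Prime → q ∣ N → q ∈ S) (h𝒟 : 𝒟 H.ρ) (hres : H.ρ.residual.IsEquiv (ρbar.baseChangeAlong (IsLocalRing.ResidueField.map (algebraMap 𝒪 T)))) : ∃ φ : D.R →ₐ[𝒪] T, Function.Surjective φ ∧ ∃ hφ : IsLocalHom (φ : D.R →+* T), (D.ρ.baseChangeAlong (φ : D.R →+* T) hφ).IsEquiv H.ρ := by
  obtain ⟨φ, ⟨hφ, ⟨e⟩⟩, -⟩ := D.universal T H.residue_surjective H.ρ h𝒟 hres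
  refine ⟨φ, ?_, hφ, ⟨e⟩⟩
  have hle : Algebra.adjoin 𝒪 (Set.range H.π) ≤ φ.range := by
    apply Algebra.adjoin_le
    rintro _ ⟨t, rfl⟩
    exact pi_mem_range H hS D.ρ φ hφ e t
  rw [H.adjoin_range_π] at hle
  intro y
  exact hle (Algebra.mem_top : y ∈ (⊤ : Subalgebra 𝒪 T))

end Fermat.Agent.S54.helper91
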